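import Mathlib
import Fermat.Prelude.Thm_ModularForm_sturm_bound_Gamma0

set_option autoImplicit false
open CuspForm ModularFormClass UpperHalfPlane
open ModularForm
open scoped MatrixGroups

namespace Fermat.Agent.S07

/-- Constant term of the `q`-expansion of a cusp form of level `Γ₀(N)` vanishes. -/
theorem cuspForm_Gamma0_coeff_zero (N : ℕ) [NeZero N] {k : ℤ}
    (f : CuspForm (CongruenceSubgroup.Gamma0 N) k) :
    (qExpansion 1 f).coeff 0 = 0 := by
  have h1 : (1 : ℝ) ∈ (CongruenceSubgroup.Gamma0 N : Subgroup (GL (Fin 2) ℝ)).strictPeriods := by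
    simp [CongruenceSubgroup.strictPeriods_Gamma0]
  rw [qExpansion_coeff_zero one_pos
    (ModularFormClass.analyticAt_cuspFunction_zero f one_pos h1)
    (SlashInvariantFormClass.periodic_comp_ofComplex f h1)]
  exact (CuspFormClass.zero_at_infty f).valueAtInfty_eq_zero

/-- A cusp form of level `Γ₀(N)` and weight `k` with `k * [SL₂(ℤ) : Γ₀(N)] < 12` is zero. -/
theorem cuspForm_Gamma0_eq_zero_of_small (N : ℕ) [NeZero N] {k : ℤ}
    (hk : (k * (CongruenceSubgroup.Gamma0 N).index).toNat / 12 = 0)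
    (f : CuspForm (CongruenceSubgroup.Gamma0 N) k) : f = 0 := by
  have h := ModularForm.sturm_bound_Gamma0 N (CuspForm.toModularFormₗ f) (by
    intro n hn
    rw [hk] at hn
    obtain rfl : n = 0 := by omega
    exact cuspForm_Gamma0_coeff_zero N f)
  exact CuspForm.toModularFormₗ_injective (by rw [h, map_zero])

theorem Gamma0_one_index : (CongruenceSubgroup.Gamma0 1).index = 1 := by
  have : CongruenceSubgroup.Gamma0 1 = ⊤ := by
    ext A
    simp only [CongruenceSubgroup.Gamma0_mem, Subgroup.mem_top, iff_true]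
    exact Subsingleton.elim _ _
  rw [this, Subgroup.index_top]

/-- The first column mod 2. -/
def firstColModTwo (g : SL(2, ℤ)) : ZMod 2 × ZMod 2 :=
  ((g 0 0 : ZMod 2), (g 1 0 : ZMod 2))

theorem firstColModTwo_eq_imp (g₁ g₂ : SL(2, ℤ)) (h : firstColModTwo g₁ = firstColModTwo g₂) :
    g₁⁻¹ * g₂ ∈ CongruenceSubgroup.Gamma0 2 := by
  rw [CongruenceSubgroup.Gamma0_mem]
  simp only [firstColModTwo, Prod.mk.injEq] at h
  obtain ⟨h0, h1⟩ := h
  have : (g₁⁻¹ * g₂) 1 0 = - g₁ 1 0 * g₂ 0 0 + g₁ 0 0 * g₂ 1 0 := by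
    simp [Matrix.SpecialLinearGroup.coe_inv, Matrix.adjugate_fin_two, Matrix.mul_apply,
      Fin.sum_univ_two]
  rw [this]
  push_cast
  rw [← h0, ← h1]
  ring

theorem Gamma0_two_index_le : (CongruenceSubgroup.Gamma0 2).index ≤ 4 := by
  classical
  rw [Subgroup.index_eq_card]
  let φ : SL(2, ℤ) ⧸ CongruenceSubgroup.Gamma0 2 → ZMod 2 × ZMod 2 :=
    fun q => firstColModTwo q.out
  have hφ : Function.Injective φ := by
    intro q₁ q₂ h
    have := firstColModTwo_eq_imp _ _ h
    rw [← QuotientGroup.eq] at this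
    simpa using this
  have := Nat.card_le_card_of_injective φ hφ
  simpa [Nat.card_eq_fintype_card] using this

end Fermat.Agent.S07
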